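/-
S25 LIB `Lib/SemiBC/Basic9671.lean` (helper9671): base change of modules along a ring homomorphism as a RELATION
(`IsSemiBC ψ j`), in exactly the shape of the fields `j₁_smul`/`univ₁` of the frozen
`GluedModule.BaseChangeData` (`Fermat/Agent/S25/Defs.lean`), with a bridge to Mathlib's
`IsBaseChange` and the standard calculus (composition, cancellation, uniqueness, transport of
module properties, right exactness, pushout/restriction of scalars).  Mathlib-only.
-/
import Mathlib

set_option autoImplicit false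
set_option linter.style.haveILetI false

universe u

namespace Fermat.Agent.S25.Lib.SemiBC

open scoped TensorProduct

section defs

variable {A A' : Type u} [CommRing A] [CommRing A'] (ψ : A →+* A')
  {M M' : Type u} [AddCommGroup M] [Module A M] [AddCommGroup M'] [Module A' M']

/-- `j : M → M'` exhibits the `A'`-module `M'` as the base change of the `A`-module `M` along
`ψ : A →+* A'`: `j` is `ψ`-semilinear and universal among `ψ`-semilinear maps into
`A'`-modules. -/
structure IsSemiBC (j : M →+ M') : Prop where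
  map_smul : ∀ (a : A) (m : M), j (a • m) = ψ a • j m
  univ : ∀ (Q : Type u) [AddCommGroup Q] [Module A' Q] (h : M →+ Q),
    (∀ (a : A) (m : M), h (a • m) = ψ a • h m) →
      ∃! h' : M' →ₗ[A'] Q, ∀ m, h' (j m) = h m

end defs

/-! ### Bridge with Mathlib's `IsBaseChange` -/

section bridge

variable {A A' : Type u} [CommRing A] [CommRing A'] [Algebra A A']
  {M M' : Type u} [AddCommGroup M] [Module A M] [AddCommGroup M'] [Module A M'] [Module A' M']
  [IsScalarTower A A' M']

theorem isSemiBC_of_isBaseChange (f : M →ₗ[A] M') (hf : IsBaseChange A' f) :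
    IsSemiBC (algebraMap A A') f.toAddMonoidHom := by
  refine ⟨fun a m => ?_, fun Q _ _ h hh => ?_⟩
  · change f (a • m) = algebraMap A A' a • f m
    rw [map_smul, algebraMap_smul]
  · letI : Module A Q := Module.compHom Q (algebraMap A A')
    haveI : IsScalarTower A A' Q := ⟨fun a b q => by
      change (a • b) • q = algebraMap A A' a • b • q
      rw [Algebra.smul_def, mul_smul]⟩
    let g : M →ₗ[A] Q := { toFun := h, map_add' := h.map_add, map_smul' := fun a m => hh a m }
    refine ⟨hf.lift g, fun m => hf.lift_eq g m, fun h' hh' => ?_⟩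
    exact hf.algHom_ext _ _ (fun m => (hh' m).trans (hf.lift_eq g m).symm)

theorem IsSemiBC.isBaseChange (f : M →ₗ[A] M')
    (h : IsSemiBC (algebraMap A A') f.toAddMonoidHom) : IsBaseChange A' f := by
  apply IsBaseChange.of_lift_unique
  intro Q iQ _ _ _ g
  letI iG : AddCommGroup Q := Module.addCommMonoidToAddCommGroup A'
  obtain ⟨g', hg', huniq⟩ := h.univ Q (AddMonoidHom.mk' (fun m => g m) (fun x y => map_add g x y))
    (fun a m => (g.map_smul a m).trans (algebraMap_smul A' a (g m)).symm)
  refine ⟨g', LinearMap.ext hg', fun g'' hg'' => huniq g'' (fun m => ?_)⟩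
  exact congrArg (fun F : M →ₗ[A] Q => F m) hg''

end bridge

/-! ### Basic calculus -/

section api

variable {A A' : Type u} [CommRing A] [CommRing A'] {ψ : A →+* A'}
  {M M' : Type u} [AddCommGroup M] [Module A M] [AddCommGroup M'] [Module A' M'] {j : M →+ M'}

/-- Gateway to Mathlib: `M' ≅ A' ⊗[A] M` (for the algebra structure `ψ.toAlgebra`). -/
theorem IsSemiBC.exists_equiv (h : IsSemiBC ψ j) :
    letI : Algebra A A' := ψ.toAlgebra
    ∃ e : A' ⊗[A] M ≃ₗ[A'] M', ∀ (a' : A') (m : M), e (a' ⊗ₜ[A] m) = a' • j m := by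
  letI : Algebra A A' := ψ.toAlgebra
  letI : Module A M' := Module.compHom M' ψ
  haveI : IsScalarTower A A' M' := ⟨fun a b m => by
    change (ψ a * b) • m = ψ a • b • m
    rw [mul_smul]⟩
  let f : M →ₗ[A] M' :=
    { toFun := j, map_add' := j.map_add, map_smul' := fun a m => h.map_smul a m }
  have hf : IsBaseChange A' f := IsSemiBC.isBaseChange f h
  exact ⟨hf.equiv, fun a' m => hf.equiv_tmul a' m⟩

/-- Converse gateway. -/
theorem isSemiBC_of_equiv (hj : ∀ (a : A) (m : M), j (a • m) = ψ a • j m)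
    (H : letI : Algebra A A' := ψ.toAlgebra
      ∃ e : A' ⊗[A] M ≃ₗ[A'] M', ∀ m : M, e ((1 : A') ⊗ₜ[A] m) = j m) : IsSemiBC ψ j := by
  letI : Algebra A A' := ψ.toAlgebra
  letI : Module A M' := Module.compHom M' ψ
  haveI : IsScalarTower A A' M' := ⟨fun a b m => by
    change (ψ a * b) • m = ψ a • b • m
    rw [mul_smul]⟩
  let f : M →ₗ[A] M' :=
    { toFun := j, map_add' := j.map_add, map_smul' := fun a m => hj a m }
  obtain ⟨e, he⟩ := H
  have hf : IsBaseChange A' f := IsBaseChange.of_equiv e he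
  exact isSemiBC_of_isBaseChange f hf

/-- The tensor product is a base change. -/
theorem isSemiBC_tmul (A A' M : Type u) [CommRing A] [CommRing A'] [Algebra A A']
    [AddCommGroup M] [Module A M] :
    IsSemiBC (algebraMap A A') (TensorProduct.mk A A' M 1).toAddMonoidHom :=
  isSemiBC_of_isBaseChange _ (TensorProduct.isBaseChange A M A')

theorem IsSemiBC.hom_ext (h : IsSemiBC ψ j) {Q : Type u} [AddCommGroup Q] [Module A' Q]
    (g₁ g₂ : M' →ₗ[A'] Q) (e : ∀ m, g₁ (j m) = g₂ (j m)) : g₁ = g₂ := by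
  obtain ⟨g, -, hu⟩ := h.univ Q (g₂.toAddMonoidHom.comp j) (fun a m => by
    change g₂ (j (a • m)) = ψ a • g₂ (j m)
    rw [h.map_smul]
    exact g₂.map_smul (ψ a) (j m))
  rw [hu g₁ (fun m => e m), hu g₂ (fun m => rfl)]

/-- The image of `j` generates `M'`. -/
theorem IsSemiBC.span_range (h : IsSemiBC ψ j) : Submodule.span A' (Set.range j) = ⊤ := by
  have h0 : (Submodule.span A' (Set.range j)).mkQ = 0 := h.hom_ext _ _ (fun m => by
    rw [LinearMap.zero_apply, Submodule.mkQ_apply, Submodule.Quotient.mk_eq_zero]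
    exact Submodule.subset_span ⟨m, rfl⟩)
  rw [← Submodule.ker_mkQ (Submodule.span A' (Set.range j)), h0, LinearMap.ker_zero]

theorem IsSemiBC.induction_on (h : IsSemiBC ψ j) {p : M' → Prop} (x : M') (zero : p 0)
    (smul : ∀ (a' : A') (m : M), p (a' • j m)) (add : ∀ x y, p x → p y → p (x + y)) : p x := by
  have hx : x ∈ Submodule.span A' (Set.range j) := by rw [h.span_range]; trivial
  have key : ∀ a : A', p (a • x) := by
    induction hx using Submodule.span_induction with
    | mem y hy =>
      obtain ⟨m, rfl⟩ := hy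
      exact fun a => smul a m
    | zero => exact fun a => by rw [smul_zero]; exact zero
    | add y z _ _ hy hz => exact fun a => by rw [smul_add]; exact add _ _ (hy a) (hz a)
    | smul b y _ hy => exact fun a => by rw [← mul_smul]; exact hy (a * b)
  simpa using key 1

/-! ### Transport of module properties -/

theorem IsSemiBC.finite (h : IsSemiBC ψ j) [Module.Finite A M] : Module.Finite A' M' := by
  letI : Algebra A A' := ψ.toAlgebra
  obtain ⟨e, -⟩ := h.exists_equiv
  exact Module.Finite.equiv e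

theorem IsSemiBC.projective (h : IsSemiBC ψ j) [Module.Projective A M] :
    Module.Projective A' M' := by
  letI : Algebra A A' := ψ.toAlgebra
  obtain ⟨e, -⟩ := h.exists_equiv
  exact Module.Projective.of_equiv e

theorem IsSemiBC.flat (h : IsSemiBC ψ j) [Module.Flat A M] : Module.Flat A' M' := by
  letI : Algebra A A' := ψ.toAlgebra
  obtain ⟨e, -⟩ := h.exists_equiv
  exact Module.Flat.of_linearEquiv e.symm

theorem IsSemiBC.free (h : IsSemiBC ψ j) [Module.Free A M] : Module.Free A' M' := by
  letI : Algebra A A' := ψ.toAlgebra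
  obtain ⟨e, -⟩ := h.exists_equiv
  exact Module.Free.of_equiv e

theorem IsSemiBC.invertible (h : IsSemiBC ψ j) [Module.Invertible A M] :
    Module.Invertible A' M' := by
  letI : Algebra A A' := ψ.toAlgebra
  obtain ⟨e, -⟩ := h.exists_equiv
  exact Module.Invertible.congr e

theorem IsSemiBC.subsingleton (h : IsSemiBC ψ j) [Subsingleton M] : Subsingleton M' := by
  refine ⟨fun x y => ?_⟩
  have key : ∀ z : M', z = 0 := fun z => by
    induction z using h.induction_on with
    | zero => rfl
    | smul a' m => rw [Subsingleton.elim m 0, map_zero, smul_zero]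
    | add x y hx hy => rw [hx, hy, add_zero]
  rw [key x, key y]

/-! ### Composition, cancellation, uniqueness -/

theorem IsSemiBC.comp {A'' M'' : Type u} [CommRing A''] [AddCommGroup M''] [Module A'' M'']
    {ψ' : A' →+* A''} {j' : M' →+ M''} (h : IsSemiBC ψ j) (h' : IsSemiBC ψ' j') :
    IsSemiBC (ψ'.comp ψ) (j'.comp j) := by
  refine ⟨fun a m => ?_, fun Q _ _ g hg => ?_⟩
  · change j' (j (a • m)) = ψ' (ψ a) • j' (j m)
    rw [h.map_smul, h'.map_smul]
  · letI : Module A' Q := Module.compHom Q ψ'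
    obtain ⟨g₁, hg₁, hu₁⟩ := h.univ Q g (fun a m => hg a m)
    obtain ⟨g₂, hg₂, hu₂⟩ := h'.univ Q g₁.toAddMonoidHom (fun a' m' => g₁.map_smul a' m')
    refine ⟨g₂, fun m => (hg₂ (j m)).trans (hg₁ m), fun g₃ hg₃ => ?_⟩
    apply hu₂
    let g₃' : M' →ₗ[A'] Q :=
      { toFun := fun m' => g₃ (j' m')
        map_add' := fun x y => by rw [map_add, map_add]
        map_smul' := fun a' m' => by
          change g₃ (j' (a' • m')) = ψ' a' • g₃ (j' m')
          rw [h'.map_smul]
          exact g₃.map_smul _ _ }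
    have e : g₃' = g₁ := hu₁ g₃' (fun m => hg₃ m)
    intro m'
    exact congrArg (fun F : M' →ₗ[A'] Q => F m') e

theorem IsSemiBC.of_comp {A'' M'' : Type u} [CommRing A''] [AddCommGroup M''] [Module A'' M'']
    {ψ' : A' →+* A''} {j' : M' →+ M''} (h : IsSemiBC ψ j)
    (hj' : ∀ (a' : A') (m' : M'), j' (a' • m') = ψ' a' • j' m')
    (hc : IsSemiBC (ψ'.comp ψ) (j'.comp j)) : IsSemiBC ψ' j' := by
  refine ⟨hj', fun Q _ _ g hg => ?_⟩
  letI : Module A' Q := Module.compHom Q ψ'
  obtain ⟨G, hG, hGu⟩ := hc.univ Q (g.comp j) (fun a m => by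
    change g (j (a • m)) = ψ' (ψ a) • g (j m)
    rw [h.map_smul, hg])
  have key : ∀ G' : M'' →ₗ[A''] Q, (∀ m, G' (j' (j m)) = g (j m)) → ∀ m', G' (j' m') = g m' := by
    intro G' hG' m'
    let u₁ : M' →ₗ[A'] Q :=
      { toFun := fun m' => G' (j' m')
        map_add' := fun x y => by rw [map_add, map_add]
        map_smul' := fun a' m' => by
          change G' (j' (a' • m')) = ψ' a' • G' (j' m')
          rw [hj']
          exact G'.map_smul _ _ }
    let u₂ : M' →ₗ[A'] Q :=
      { toFun := g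
        map_add' := g.map_add
        map_smul' := fun a' m' => hg a' m' }
    have e : u₁ = u₂ := h.hom_ext u₁ u₂ (fun m => hG' m)
    exact congrArg (fun F : M' →ₗ[A'] Q => F m') e
  refine ⟨G, key G hG, fun G' hG' => hGu G' (fun m => hG' (j m))⟩

/-- Two base changes of the same module are canonically isomorphic. -/
theorem IsSemiBC.exists_linearEquiv {M'' : Type u} [AddCommGroup M''] [Module A' M'']
    {j₂ : M →+ M''} (h : IsSemiBC ψ j) (h₂ : IsSemiBC ψ j₂) :
    ∃ e : M' ≃ₗ[A'] M'', ∀ m, e (j m) = j₂ m := by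
  obtain ⟨a, ha, -⟩ := h.univ M'' j₂ h₂.map_smul
  obtain ⟨b, hb, -⟩ := h₂.univ M' j h.map_smul
  have hab : b ∘ₗ a = LinearMap.id := h.hom_ext _ _ (fun m => by
    change b (a (j m)) = j m
    rw [ha, hb])
  have hba : a ∘ₗ b = LinearMap.id := h₂.hom_ext _ _ (fun m => by
    change a (b (j₂ m)) = j₂ m
    rw [hb, ha])
  exact ⟨LinearEquiv.ofLinearMap a b hba hab, ha⟩

theorem IsSemiBC.of_linearEquiv {M'' : Type u} [AddCommGroup M''] [Module A' M'']
    (h : IsSemiBC ψ j) (e : M' ≃ₗ[A'] M'') :
    IsSemiBC ψ (e.toLinearMap.toAddMonoidHom.comp j) := by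
  refine ⟨fun a m => ?_, fun Q _ _ g hg => ?_⟩
  · change e (j (a • m)) = ψ a • e (j m)
    rw [h.map_smul]
    exact e.map_smul (ψ a) (j m)
  · obtain ⟨g', hg', hu⟩ := h.univ Q g hg
    refine ⟨g' ∘ₗ e.symm.toLinearMap, fun m => ?_, fun g'' hg'' => ?_⟩
    · change g' (e.symm (e (j m))) = g m
      rw [e.symm_apply_apply, hg']
    · have : g'' ∘ₗ e.toLinearMap = g' := hu _ (fun m => hg'' m)
      rw [← this]
      ext x
      simp

theorem IsSemiBC.comp_linearEquiv {M₀ : Type u} [AddCommGroup M₀] [Module A M₀]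
    (h : IsSemiBC ψ j) (e : M₀ ≃ₗ[A] M) :
    IsSemiBC ψ (j.comp e.toLinearMap.toAddMonoidHom) := by
  refine ⟨fun a m => ?_, fun Q _ _ g hg => ?_⟩
  · change j (e (a • m)) = ψ a • j (e m)
    rw [e.map_smul a m, h.map_smul]
  · obtain ⟨g', hg', hu⟩ := h.univ Q (g.comp e.symm.toLinearMap.toAddMonoidHom) (fun a m => by
      change g (e.symm (a • m)) = ψ a • g (e.symm m)
      rw [e.symm.map_smul a m, hg])
    refine ⟨g', fun m => ?_, fun g'' hg'' => hu g'' (fun m => ?_)⟩
    · change g' (j (e m)) = g m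
      rw [hg']
      change g (e.symm (e m)) = g m
      rw [e.symm_apply_apply]
    · change g'' (j m) = g (e.symm m)
      rw [← hg'' (e.symm m)]
      change g'' (j m) = g'' (j (e (e.symm m)))
      rw [e.apply_symm_apply]

/-- A linear equivalence is a base change along the identity. -/
theorem isSemiBC_id_of_linearEquiv {M₂ : Type u} [AddCommGroup M₂] [Module A M₂]
    (e : M ≃ₗ[A] M₂) : IsSemiBC (RingHom.id A) e.toLinearMap.toAddMonoidHom := by
  refine ⟨fun a m => by simp, fun Q _ _ g hg => ?_⟩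
  let g' : M →ₗ[A] Q := { toFun := g, map_add' := g.map_add, map_smul' := fun a m => hg a m }
  refine ⟨g' ∘ₗ e.symm.toLinearMap, fun m => ?_, fun g'' hg'' => ?_⟩
  · change g (e.symm (e m)) = g m
    rw [e.symm_apply_apply]
  · ext x
    change g'' x = g (e.symm x)
    rw [← hg'' (e.symm x)]
    change g'' x = g'' (e (e.symm x))
    rw [e.apply_symm_apply]

/-- A base change along the identity is a linear equivalence. -/
theorem IsSemiBC.exists_linearEquiv_of_id {M₂ : Type u} [AddCommGroup M₂] [Module A M₂]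
    {j₀ : M →+ M₂} (h : IsSemiBC (RingHom.id A) j₀) : ∃ e : M ≃ₗ[A] M₂, ∀ m, e m = j₀ m :=
  (isSemiBC_id_of_linearEquiv (LinearEquiv.refl A M)).exists_linearEquiv h

/-! ### Right exactness -/

/-- Base change commutes with quotients: if `p : M → P` and `p' : M' → P'` are surjective,
`jP ∘ p = p' ∘ j` and `ker p'` is generated by `j (ker p)`, then `jP` is a base change. -/
theorem IsSemiBC.of_surjective {P P' : Type u} [AddCommGroup P] [Module A P] [AddCommGroup P']
    [Module A' P'] (h : IsSemiBC ψ j) (p : M →ₗ[A] P) (hp : Function.Surjective p)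
    (p' : M' →ₗ[A'] P') (hp' : Function.Surjective p') (jP : P →+ P')
    (hjP : ∀ (a : A) (x : P), jP (a • x) = ψ a • jP x)
    (hcomm : ∀ m, jP (p m) = p' (j m))
    (hker : LinearMap.ker p' ≤ Submodule.span A' (j '' (LinearMap.ker p : Set M))) :
    IsSemiBC ψ jP := by
  refine ⟨hjP, fun Q _ _ g hg => ?_⟩
  obtain ⟨G, hG, hGu⟩ := h.univ Q (g.comp p.toAddMonoidHom) (fun a m => by
    change g (p (a • m)) = ψ a • g (p m)
    rw [p.map_smul a m, hg])
  have hle : LinearMap.ker p' ≤ LinearMap.ker G := by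
    refine hker.trans (Submodule.span_le.mpr ?_)
    rintro _ ⟨m, hm, rfl⟩
    change G (j m) = 0
    rw [hG]
    change g (p m) = 0
    rw [LinearMap.mem_ker.mp hm, map_zero]
  let e := LinearMap.quotKerEquivOfSurjective p' hp'
  have he : ∀ m', e.symm (p' m') = Submodule.Quotient.mk m' := fun m' => by
    rw [LinearEquiv.symm_apply_eq]
    rfl
  let g' : P' →ₗ[A'] Q := ((LinearMap.ker p').liftQ G hle) ∘ₗ e.symm.toLinearMap
  have hg' : ∀ m', g' (p' m') = G m' := fun m' => by
    change (LinearMap.ker p').liftQ G hle (e.symm (p' m')) = G m'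
    rw [he]
    rfl
  refine ⟨g', fun x => ?_, fun g'' hg'' => ?_⟩
  · obtain ⟨m, rfl⟩ := hp x
    rw [hcomm, hg', hG]
    rfl
  · have e1 : g'' ∘ₗ p' = G := hGu _ (fun m => by
      change g'' (p' (j m)) = g (p m)
      rw [← hcomm, hg''])
    ext x
    obtain ⟨m', rfl⟩ := hp' x
    rw [hg', ← e1]
    rfl

/-! ### Pushout squares: restriction of the base -/

/-- If `ψ : B → B'` lies over `φ : R → R'` and exhibits `B'` as the base change of the
`R`-module `B` (i.e. `B' = R' ⊗[R] B`), then a base change of a `B`-module along `ψ` is also a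
base change of the underlying `R`-module along `φ`. -/
theorem IsSemiBC.restrict {R R' B B' : Type u} [CommRing R] [CommRing R'] [CommRing B]
    [CommRing B'] [Algebra R B] [Algebra R' B'] {φ : R →+* R'} {ψ : B →+* B'}
    (hψ : ∀ r, ψ (algebraMap R B r) = algebraMap R' B' (φ r))
    (hpo : IsSemiBC φ ψ.toAddMonoidHom)
    {M M' : Type u} [AddCommGroup M] [Module R M] [Module B M] [IsScalarTower R B M]
    [AddCommGroup M'] [Module R' M'] [Module B' M'] [IsScalarTower R' B' M']
    {j : M →+ M'} (h : IsSemiBC ψ j) : IsSemiBC φ j := by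
  letI : Algebra R R' := φ.toAlgebra
  letI : Algebra B B' := ψ.toAlgebra
  letI : Algebra R B' := ((algebraMap R' B').comp φ).toAlgebra
  haveI : IsScalarTower R R' B' := IsScalarTower.of_algebraMap_eq (fun _ => rfl)
  haveI : IsScalarTower R B B' := IsScalarTower.of_algebraMap_eq (fun r => (hψ r).symm)
  haveI : Algebra.IsPushout R R' B B' :=
    ⟨IsSemiBC.isBaseChange (IsScalarTower.toAlgHom R B B').toLinearMap hpo⟩
  obtain ⟨e₁, he₁⟩ := h.exists_equiv
  have hj : ∀ (r : R) (m : M), j (r • m) = φ r • j m := fun r m => by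
    rw [← algebraMap_smul B r m, h.map_smul, hψ, algebraMap_smul]
  refine isSemiBC_of_equiv hj
    ⟨(Algebra.IsPushout.cancelBaseChange R R' B B' M).symm ≪≫ₗ e₁.restrictScalars R', fun m => ?_⟩
  rw [LinearEquiv.trans_apply, Algebra.IsPushout.cancelBaseChange_symm_tmul, map_one]
  change e₁ ((1 : B') ⊗ₜ[B] m) = j m
  rw [he₁, one_smul]

end api

end Fermat.Agent.S25.Lib.SemiBC
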