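/-
S25 LIB `Lib/SemiBC/Coh9671.lean` (helper9671): cohomology and base change in RELATIONAL form.

For `D : GluedModule.BaseChangeData Ψ N N'` (frozen `Defs.lean`):
* `isSemiBC_j₁ / j₂ / j₁₂`   : the three comparison maps are base changes along `ψ₁, ψ₂, ψ₁₂`;
* for a pushout morphism of two-charts (`IsPushoutHom Ψ`, e.g. `𝒞.chartHom φ`:
  `isPushoutHom_chartHom`) they are base changes of the underlying `R`-modules along `φ`
  (`isSemiBC_R₁ / R₂ / R₁₂`);
* `mapH1 D`, `isSemiBC_mapH1` : `H¹` commutes with every base change;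
* `mapH0 D`, `isSemiBC_mapH0_of_flat`, `isSemiBC_mapH0_of_surjective` : `H⁰` commutes with flat
  base change, and with every base change when `H¹(N) = 0` and `N₁₂` is `R`-flat (CB1);
* `chi_eq_of_isBC_field` : the Euler characteristic is invariant under extension of the base field;
* generic: `IsSemiBC.prodMap`, `IsSemiBC.finrank_eq` (fields), `IsSemiBC.finrank_eq_rankAtStalk`
  (fibre dimension of a finite flat module = `Module.rankAtStalk`), `IsSemiBC.ker_of_flat`,
  `IsSemiBC.ker_of_surjective_of_flat`, `isSemiBC_tensorMap`.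
-/
import Fermat.Agent.S25.Defs
import Fermat.Agent.S25.Lib.SemiBC.Basic9671

set_option autoImplicit false
set_option linter.style.haveILetI false

universe u

namespace Fermat.Agent.S25.Lib.SemiBC

open scoped TensorProduct

open Fermat.Agent.S25 GluedModule

/-! ### More generic calculus -/

section generic

variable {A A' : Type u} [CommRing A] [CommRing A'] {ψ : A →+* A'}

/-- Base change commutes with binary products. -/
theorem IsSemiBC.prodMap {M₁ M₁' M₂ M₂' : Type u} [AddCommGroup M₁] [Module A M₁]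
    [AddCommGroup M₁'] [Module A' M₁'] [AddCommGroup M₂] [Module A M₂] [AddCommGroup M₂']
    [Module A' M₂'] {j₁ : M₁ →+ M₁'} {j₂ : M₂ →+ M₂'} (h₁ : IsSemiBC ψ j₁)
    (h₂ : IsSemiBC ψ j₂) : IsSemiBC ψ (j₁.prodMap j₂) := by
  refine ⟨fun a m => ?_, fun Q _ _ g hg => ?_⟩
  · change (j₁ (a • m).1, j₂ (a • m).2) = ψ a • (j₁ m.1, j₂ m.2)
    rw [Prod.smul_fst, Prod.smul_snd, h₁.map_smul, h₂.map_smul]
    rfl
  · obtain ⟨G₁, hG₁, hu₁⟩ := h₁.univ Q (g.comp (AddMonoidHom.inl M₁ M₂)) (fun a m => by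
      change g (a • m, 0) = ψ a • g (m, 0)
      rw [← hg]
      congr 1
      ext <;> simp)
    obtain ⟨G₂, hG₂, hu₂⟩ := h₂.univ Q (g.comp (AddMonoidHom.inr M₁ M₂)) (fun a m => by
      change g (0, a • m) = ψ a • g (0, m)
      rw [← hg]
      congr 1
      ext <;> simp)
    refine ⟨G₁.coprod G₂, fun m => ?_, fun G' hG' => ?_⟩
    · change G₁ (j₁ m.1) + G₂ (j₂ m.2) = g m
      rw [hG₁, hG₂]
      change g (m.1, 0) + g (0, m.2) = g m
      rw [← map_add]
      congr 1
      ext <;> simp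
    · have e₁ : G' ∘ₗ LinearMap.inl A' M₁' M₂' = G₁ := hu₁ _ (fun m => by
        change G' (j₁ m, 0) = g (m, 0)
        rw [← hG' (m, 0)]
        change G' (j₁ m, 0) = G' (j₁ m, j₂ 0)
        rw [map_zero])
      have e₂ : G' ∘ₗ LinearMap.inr A' M₁' M₂' = G₂ := hu₂ _ (fun m => by
        change G' (0, j₂ m) = g (0, m)
        rw [← hG' (0, m)]
        change G' (0, j₂ m) = G' (j₁ 0, j₂ m)
        rw [map_zero])
      rw [← e₁, ← e₂]
      ext x <;> simp

/-- Base change along a field extension preserves the dimension. -/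
theorem IsSemiBC.finrank_eq {K K' : Type u} [Field K] [Field K'] {σ : K →+* K'}
    {M M' : Type u} [AddCommGroup M] [Module K M] [AddCommGroup M'] [Module K' M']
    {j : M →+ M'} (h : IsSemiBC σ j) : Module.finrank K' M' = Module.finrank K M := by
  letI : Algebra K K' := σ.toAlgebra
  obtain ⟨e, -⟩ := h.exists_equiv
  rw [← e.finrank_eq, Module.finrank_baseChange]

/-- The dimension of a base change to a field is the rank of the module at the corresponding
point of the spectrum (hence locally constant for finitely presented flat modules). -/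
theorem IsSemiBC.finrank_eq_rankAtStalk {R κ : Type u} [CommRing R] [Field κ] {σ : R →+* κ}
    {M M' : Type u} [AddCommGroup M] [Module R M] [Module.Finite R M] [Module.Flat R M]
    [AddCommGroup M'] [Module κ M'] {j : M →+ M'} (h : IsSemiBC σ j) :
    Module.finrank κ M' = Module.rankAtStalk M ⟨RingHom.ker σ, RingHom.ker_isPrime σ⟩ := by
  letI : Algebra R κ := σ.toAlgebra
  obtain ⟨e, -⟩ := h.exists_equiv
  rw [← e.finrank_eq]
  have h1 := Module.rankAtStalk_baseChange (R := R) (M := M) (S := κ)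
    (⟨⊥, Ideal.isPrime_bot⟩ : PrimeSpectrum κ)
  rw [Module.rankAtStalk_eq_finrank_of_free] at h1
  exact h1

section kernels

variable {R R' : Type u} [CommRing R] [CommRing R'] {φ : R →+* R'}
  {M M' P P' : Type u} [AddCommGroup M] [Module R M] [AddCommGroup M'] [Module R' M']
  [AddCommGroup P] [Module R P] [AddCommGroup P'] [Module R' P']
  {j : M →+ M'} {jP : P →+ P'}

/-- Flat base change commutes with kernels. -/
theorem IsSemiBC.ker_of_flat (hφ : φ.Flat) (hj : IsSemiBC φ j) (hjP : IsSemiBC φ jP)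
    (d : M →ₗ[R] P) (d' : M' →ₗ[R'] P') (hd : ∀ m, jP (d m) = d' (j m))
    (jK : LinearMap.ker d →+ LinearMap.ker d') (hjK : ∀ x, (jK x : M') = j x) :
    IsSemiBC φ jK := by
  letI : Algebra R R' := φ.toAlgebra
  haveI : Module.Flat R R' := hφ
  letI : Module R M' := Module.compHom M' φ
  haveI : IsScalarTower R R' M' := ⟨fun a b m => by
    change (φ a * b) • m = φ a • b • m
    rw [mul_smul]⟩
  letI : Module R P' := Module.compHom P' φ
  haveI : IsScalarTower R R' P' := ⟨fun a b m => by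
    change (φ a * b) • m = φ a • b • m
    rw [mul_smul]⟩
  letI : Module R (LinearMap.ker d') := Module.compHom (LinearMap.ker d') φ
  haveI : IsScalarTower R R' (LinearMap.ker d') := ⟨fun a b m => by
    change (φ a * b) • m = φ a • b • m
    rw [mul_smul]⟩
  let fM : M →ₗ[R] M' :=
    { toFun := j, map_add' := j.map_add, map_smul' := fun a m => hj.map_smul a m }
  let fP : P →ₗ[R] P' :=
    { toFun := jP, map_add' := jP.map_add, map_smul' := fun a m => hjP.map_smul a m }
  have hK : ∀ (a : R) (x : LinearMap.ker d), jK (a • x) = φ a • jK x := fun a x => by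
    apply Subtype.ext
    change (jK (a • x) : M') = φ a • (jK x : M')
    rw [hjK, hjK]
    exact hj.map_smul a x
  let fK : LinearMap.ker d →ₗ[R] LinearMap.ker d' :=
    { toFun := jK, map_add' := jK.map_add, map_smul' := hK }
  have hfM : IsBaseChange R' fM := IsSemiBC.isBaseChange fM hj
  have hfP : IsBaseChange R' fP := IsSemiBC.isBaseChange fP hjP
  have key : IsBaseChange R' fK := by
    refine IsBaseChange.of_left_exact (S := R') fK fM fP
      (f := (LinearMap.ker d).subtype) (g := d)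
      (f' := (LinearMap.ker d').subtype) (g' := d') ?_ ?_ hfM hfP
      (LinearMap.exact_subtype_ker_map d) (LinearMap.ker d).subtype_injective
      (LinearMap.exact_subtype_ker_map d') (LinearMap.ker d').subtype_injective
    · ext x
      exact (hjK x).symm
    · ext m
      exact hd m
  exact isSemiBC_of_isBaseChange fK key

/-- Base change commutes with the kernel of a surjection onto a flat module (no hypothesis on
`φ`). -/
theorem IsSemiBC.ker_of_surjective_of_flat [Module.Flat R P] (hj : IsSemiBC φ j)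
    (hjP : IsSemiBC φ jP) (d : M →ₗ[R] P) (hds : Function.Surjective d) (d' : M' →ₗ[R'] P')
    (hd : ∀ m, jP (d m) = d' (j m))
    (jK : LinearMap.ker d →+ LinearMap.ker d') (hjK : ∀ x, (jK x : M') = j x) :
    IsSemiBC φ jK := by
  letI : Algebra R R' := φ.toAlgebra
  letI : Module R M' := Module.compHom M' φ
  haveI : IsScalarTower R R' M' := ⟨fun a b m => by
    change (φ a * b) • m = φ a • b • m
    rw [mul_smul]⟩
  letI : Module R P' := Module.compHom P' φ
  haveI : IsScalarTower R R' P' := ⟨fun a b m => by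
    change (φ a * b) • m = φ a • b • m
    rw [mul_smul]⟩
  letI : Module R (LinearMap.ker d') := Module.compHom (LinearMap.ker d') φ
  haveI : IsScalarTower R R' (LinearMap.ker d') := ⟨fun a b m => by
    change (φ a * b) • m = φ a • b • m
    rw [mul_smul]⟩
  let fM : M →ₗ[R] M' :=
    { toFun := j, map_add' := j.map_add, map_smul' := fun a m => hj.map_smul a m }
  let fP : P →ₗ[R] P' :=
    { toFun := jP, map_add' := jP.map_add, map_smul' := fun a m => hjP.map_smul a m }
  have hK : ∀ (a : R) (x : LinearMap.ker d), jK (a • x) = φ a • jK x := fun a x => by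
    apply Subtype.ext
    change (jK (a • x) : M') = φ a • (jK x : M')
    rw [hjK, hjK]
    exact hj.map_smul a x
  let fK : LinearMap.ker d →ₗ[R] LinearMap.ker d' :=
    { toFun := jK, map_add' := jK.map_add, map_smul' := hK }
  have hfM : IsBaseChange R' fM := IsSemiBC.isBaseChange fM hj
  have hfP : IsBaseChange R' fP := IsSemiBC.isBaseChange fP hjP
  have hinj : Function.Injective ((LinearMap.ker d).subtype.lTensor R') :=
    LinearMap.lTensor_injective_of_exact_of_flat d hds (LinearMap.ker d).subtype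
      (LinearMap.ker d).subtype_injective (LinearMap.exact_subtype_ker_map d) R'
  have hex : Function.Exact ((LinearMap.ker d).subtype.lTensor R') (d.lTensor R') :=
    lTensor_exact R' (LinearMap.exact_subtype_ker_map d) hds
  have hT : ∀ s : R' ⊗[R] LinearMap.ker d, ((fK.liftBaseChange R' s : LinearMap.ker d') : M') =
      hfM.equiv ((LinearMap.ker d).subtype.lTensor R' s) := by
    intro s
    induction s using TensorProduct.induction_on with
    | zero => simp
    | tmul a y =>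
      rw [LinearMap.liftBaseChange_tmul, LinearMap.lTensor_tmul, hfM.equiv_tmul]
      change a • (jK y : M') = a • j y
      rw [hjK]
    | add x y hx hy =>
      rw [map_add, map_add, map_add, ← hx, ← hy]
      rfl
  have hsq : ∀ t : R' ⊗[R] M, d' (hfM.equiv t) = hfP.equiv (d.lTensor R' t) := by
    intro t
    induction t using TensorProduct.induction_on with
    | zero => simp
    | tmul a m =>
      rw [LinearMap.lTensor_tmul, hfM.equiv_tmul, hfP.equiv_tmul, d'.map_smul]
      change a • d' (j m) = a • jP (d m)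
      rw [hd]
    | add x y hx hy => rw [map_add, map_add, map_add, map_add, hx, hy]
  have hbij : Function.Bijective (fK.liftBaseChange R') := by
    constructor
    · intro s₁ s₂ h12
      apply hinj
      apply hfM.equiv.injective
      rw [← hT, ← hT, h12]
    · intro z
      have h0 : d.lTensor R' (hfM.equiv.symm (z : M')) = 0 := by
        apply hfP.equiv.injective
        rw [← hsq, LinearEquiv.apply_symm_apply, map_zero]
        exact z.2
      obtain ⟨s, hs⟩ := (hex _).mp h0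
      refine ⟨s, Subtype.ext ?_⟩
      rw [hT, hs, LinearEquiv.apply_symm_apply]
  have key : IsBaseChange R' fK :=
    IsBaseChange.of_equiv (LinearEquiv.ofBijective (fK.liftBaseChange R') hbij) (fun x => by
      rw [LinearEquiv.ofBijective_apply, LinearMap.liftBaseChange_tmul, one_smul])
  exact isSemiBC_of_isBaseChange fK key

end kernels

/-- `R' ⊗[k] A` is the base change of the `R`-module `R ⊗[k] A` along `φ : R →ₐ[k] R'`. -/
theorem isSemiBC_tensorMap {k : Type u} [CommRing k] {R R' : Type u} [CommRing R] [Algebra k R]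
    [CommRing R'] [Algebra k R'] (φ : R →ₐ[k] R') (A : Type u) [CommRing A] [Algebra k A] :
    IsSemiBC (φ : R →+* R')
      (Algebra.TensorProduct.map φ (AlgHom.id k A)).toRingHom.toAddMonoidHom := by
  refine isSemiBC_of_equiv (fun r m => ?_) ?_
  · change Algebra.TensorProduct.map φ (AlgHom.id k A) (r • m) =
      φ r • Algebra.TensorProduct.map φ (AlgHom.id k A) m
    rw [Algebra.smul_def, map_mul, Algebra.smul_def]
    congr 1
  · letI : Algebra R R' := (φ : R →+* R').toAlgebra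
    haveI : IsScalarTower k R R' := IsScalarTower.of_algebraMap_eq (fun c => (φ.commutes c).symm)
    refine ⟨TensorProduct.AlgebraTensorModule.cancelBaseChange k R R' R' A, fun m => ?_⟩
    induction m using TensorProduct.induction_on with
    | zero => simp
    | tmul r a =>
      rw [TensorProduct.AlgebraTensorModule.cancelBaseChange_tmul]
      change (φ r * 1) ⊗ₜ[k] a = Algebra.TensorProduct.map φ (AlgHom.id k A) (r ⊗ₜ[k] a)
      rw [mul_one, Algebra.TensorProduct.map_tmul, AlgHom.id_apply]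
    | add x y hx hy =>
      rw [TensorProduct.tmul_add, map_add, hx, hy]
      exact (map_add (Algebra.TensorProduct.map φ (AlgHom.id k A)) x y).symm

end generic

/-! ### Glued modules -/

section glued

variable {R R' : Type u} [CommRing R] [CommRing R'] {φ : R →+* R'} {𝔹 : TwoChart R}
  {𝔹' : TwoChart R'} {Ψ : TwoChart.Hom φ 𝔹 𝔹'} {N : GluedModule 𝔹} {N' : GluedModule 𝔹'}

/-- The restriction map `ι₁ : N₁ → N₁₂` is a base change along `r₁` (localisation). -/
theorem isSemiBC_ι₁ (N : GluedModule 𝔹) : IsSemiBC 𝔹.r₁.toRingHom N.ι₁.toAddMonoidHom := by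
  letI := 𝔹.algebra₁
  letI := N.module₁
  haveI := N.isScalarTower₁
  haveI := 𝔹.isLocalization₁
  haveI := N.isLocalizedModule₁
  have hb : IsBaseChange 𝔹.B₁₂ N.ι₁ₗ :=
    IsLocalizedModule.isBaseChange (Submonoid.powers 𝔹.f) 𝔹.B₁₂ N.ι₁ₗ
  exact isSemiBC_of_isBaseChange N.ι₁ₗ hb

/-- The restriction map `ι₂ : N₂ → N₁₂` is a base change along `r₂` (localisation). -/
theorem isSemiBC_ι₂ (N : GluedModule 𝔹) : IsSemiBC 𝔹.r₂.toRingHom N.ι₂.toAddMonoidHom := by
  letI := 𝔹.algebra₂
  letI := N.module₂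
  haveI := N.isScalarTower₂
  haveI := 𝔹.isLocalization₂
  haveI := N.isLocalizedModule₂
  have hb : IsBaseChange 𝔹.B₁₂ N.ι₂ₗ :=
    IsLocalizedModule.isBaseChange (Submonoid.powers 𝔹.g) 𝔹.B₁₂ N.ι₂ₗ
  exact isSemiBC_of_isBaseChange N.ι₂ₗ hb

theorem isSemiBC_j₁ (D : BaseChangeData Ψ N N') : IsSemiBC Ψ.ψ₁ D.j₁ := ⟨D.j₁_smul, D.univ₁⟩

theorem isSemiBC_j₂ (D : BaseChangeData Ψ N N') : IsSemiBC Ψ.ψ₂ D.j₂ := ⟨D.j₂_smul, D.univ₂⟩

/-- The comparison map on the overlap is a base change too (not part of the frozen data). -/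
theorem isSemiBC_j₁₂ (D : BaseChangeData Ψ N N') : IsSemiBC Ψ.ψ₁₂ D.j₁₂ := by
  have h1 : IsSemiBC (𝔹'.r₁.toRingHom.comp Ψ.ψ₁) (N'.ι₁.toAddMonoidHom.comp D.j₁) :=
    (isSemiBC_j₁ D).comp (isSemiBC_ι₁ N')
  have e1 : 𝔹'.r₁.toRingHom.comp Ψ.ψ₁ = Ψ.ψ₁₂.comp 𝔹.r₁.toRingHom :=
    RingHom.ext (fun b => (Ψ.comm₁ b).symm)
  have e2 : N'.ι₁.toAddMonoidHom.comp D.j₁ = D.j₁₂.comp N.ι₁.toAddMonoidHom :=
    AddMonoidHom.ext (fun n => (D.comm₁ n).symm)
  rw [e1, e2] at h1
  exact (isSemiBC_ι₁ N).of_comp D.j₁₂_smul h1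

/-- `Ψ` is a pushout of two-charts: `B'_i = R' ⊗[R] B_i` as modules. -/
structure IsPushoutHom (Ψ : TwoChart.Hom φ 𝔹 𝔹') : Prop where
  po₁ : IsSemiBC φ Ψ.ψ₁.toAddMonoidHom
  po₂ : IsSemiBC φ Ψ.ψ₂.toAddMonoidHom
  po₁₂ : IsSemiBC φ Ψ.ψ₁₂.toAddMonoidHom

/-- Over a pushout of two-charts, `N'₁` is the base change of the `R`-module `N₁`. -/
theorem isSemiBC_R₁ (hΨ : IsPushoutHom Ψ) (D : BaseChangeData Ψ N N') : IsSemiBC φ D.j₁ :=
  IsSemiBC.restrict Ψ.alg₁ hΨ.po₁ (isSemiBC_j₁ D)

theorem isSemiBC_R₂ (hΨ : IsPushoutHom Ψ) (D : BaseChangeData Ψ N N') : IsSemiBC φ D.j₂ :=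
  IsSemiBC.restrict Ψ.alg₂ hΨ.po₂ (isSemiBC_j₂ D)

theorem isSemiBC_R₁₂ (hΨ : IsPushoutHom Ψ) (D : BaseChangeData Ψ N N') : IsSemiBC φ D.j₁₂ :=
  IsSemiBC.restrict Ψ.alg₁₂ hΨ.po₁₂ (isSemiBC_j₁₂ D)

end glued

/-- The base change `𝒞.chart R → 𝒞.chart R'` of the family is a pushout of two-charts. -/
theorem isPushoutHom_chartHom {k : Type u} [Field k] (𝒞 : CurveData k) {R R' : Type u}
    [CommRing R] [Algebra k R] [CommRing R'] [Algebra k R'] (φ : R →ₐ[k] R') :
    IsPushoutHom (𝒞.chartHom φ) :=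
  ⟨isSemiBC_tensorMap φ 𝒞.A₁, isSemiBC_tensorMap φ 𝒞.A₂, isSemiBC_tensorMap φ 𝒞.A₁₂⟩

/-! ### Cohomology and base change -/

section coh

variable {R R' : Type u} [CommRing R] [CommRing R'] {φ : R →+* R'} {𝔹 : TwoChart R}
  {𝔹' : TwoChart R'} {Ψ : TwoChart.Hom φ 𝔹 𝔹'} {N : GluedModule 𝔹} {N' : GluedModule 𝔹'}

theorem j₁_smulR (D : BaseChangeData Ψ N N') (r : R) (n : N.N₁) :
    D.j₁ (r • n) = φ r • D.j₁ n := by
  rw [← algebraMap_smul 𝔹.B₁ r n, D.j₁_smul, Ψ.alg₁, algebraMap_smul]

theorem j₂_smulR (D : BaseChangeData Ψ N N') (r : R) (n : N.N₂) :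
    D.j₂ (r • n) = φ r • D.j₂ n := by
  rw [← algebraMap_smul 𝔹.B₂ r n, D.j₂_smul, Ψ.alg₂, algebraMap_smul]

theorem j₁₂_smulR (D : BaseChangeData Ψ N N') (r : R) (n : N.N₁₂) :
    D.j₁₂ (r • n) = φ r • D.j₁₂ n := by
  rw [← algebraMap_smul 𝔹.B₁₂ r n, D.j₁₂_smul, Ψ.alg₁₂, algebraMap_smul]

/-- The comparison maps commute with the Čech differentials. -/
theorem j₁₂_d (D : BaseChangeData Ψ N N') (x : N.N₁ × N.N₂) :
    D.j₁₂ (N.d x) = N'.d (D.j₁ x.1, D.j₂ x.2) := by
  rw [d_apply, d_apply, map_sub, D.comm₁, D.comm₂]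

/-- The comparison map on the overlap as a `φ`-semilinear map. -/
def j₁₂ₛ (D : BaseChangeData Ψ N N') : N.N₁₂ →ₛₗ[φ] N'.N₁₂ :=
  { toFun := D.j₁₂
    map_add' := D.j₁₂.map_add
    map_smul' := fun r n => j₁₂_smulR D r n }

/-- The `φ`-semilinear map induced on `H¹`. -/
def mapH1ₛ (D : BaseChangeData Ψ N N') : N.H1 →ₛₗ[φ] N'.H1 :=
  Submodule.mapQ _ _ (j₁₂ₛ D) (by
    rintro _ ⟨x, rfl⟩
    rw [Submodule.mem_comap]
    exact ⟨(D.j₁ x.1, D.j₂ x.2), (j₁₂_d D x).symm⟩)

/-- The map induced on `H¹` by a base change datum. -/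
def mapH1 (D : BaseChangeData Ψ N N') : N.H1 →+ N'.H1 := (mapH1ₛ D).toAddMonoidHom

@[simp] theorem mapH1_mk (D : BaseChangeData Ψ N N') (x : N.N₁₂) :
    mapH1 D (Submodule.Quotient.mk x) = Submodule.Quotient.mk (D.j₁₂ x) := rfl

theorem mapH1_smul (D : BaseChangeData Ψ N N') (r : R) (x : N.H1) :
    mapH1 D (r • x) = φ r • mapH1 D x := (mapH1ₛ D).map_smulₛₗ r x

/-- `H¹` commutes with every base change (over a pushout of two-charts). -/
theorem isSemiBC_mapH1 (hΨ : IsPushoutHom Ψ) (D : BaseChangeData Ψ N N') :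
    IsSemiBC φ (mapH1 D) := by
  refine (isSemiBC_R₁₂ hΨ D).of_surjective (LinearMap.range N.d).mkQ
    (Submodule.mkQ_surjective _) (LinearMap.range N'.d).mkQ (Submodule.mkQ_surjective _)
    (mapH1 D) (mapH1_smul D) (fun m => rfl) ?_
  rw [Submodule.ker_mkQ, Submodule.ker_mkQ]
  rintro _ ⟨⟨x, y⟩, rfl⟩
  rw [d_apply]
  refine Submodule.sub_mem _ ?_ ?_
  · change N'.ι₁ x ∈ _
    induction x using (isSemiBC_R₁ hΨ D).induction_on with
    | zero => rw [map_zero]; exact Submodule.zero_mem _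
    | smul a n =>
      rw [(N'.ι₁).map_smul]
      refine Submodule.smul_mem _ _ (Submodule.subset_span ?_)
      refine ⟨N.ι₁ n, ⟨(n, 0), ?_⟩, D.comm₁ n⟩
      rw [d_apply, map_zero, sub_zero]
    | add x y hx hy => rw [map_add]; exact Submodule.add_mem _ hx hy
  · change N'.ι₂ y ∈ _
    induction y using (isSemiBC_R₂ hΨ D).induction_on with
    | zero => rw [map_zero]; exact Submodule.zero_mem _
    | smul a n =>
      rw [(N'.ι₂).map_smul]
      refine Submodule.smul_mem _ _ (Submodule.subset_span ?_)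
      refine ⟨N.ι₂ n, ⟨(0, -n), ?_⟩, D.comm₂ n⟩
      rw [d_apply, map_zero, map_neg, zero_sub, neg_neg]
    | add x y hx hy => rw [map_add]; exact Submodule.add_mem _ hx hy

/-- Vanishing of `H¹` is stable under base change. -/
theorem H1_subsingleton_of_baseChangeData (hΨ : IsPushoutHom Ψ) (D : BaseChangeData Ψ N N')
    [Subsingleton N.H1] : Subsingleton N'.H1 :=
  (isSemiBC_mapH1 hΨ D).subsingleton

/-- The map induced on `H⁰` by a base change datum. -/
def mapH0 (D : BaseChangeData Ψ N N') : N.H0 →+ N'.H0 where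
  toFun x := ⟨(D.j₁ (x : N.N₁ × N.N₂).1, D.j₂ (x : N.N₁ × N.N₂).2), by
    have hx := x.2
    rw [mem_H0] at hx ⊢
    change N'.ι₁ (D.j₁ _) = N'.ι₂ (D.j₂ _)
    rw [← D.comm₁, ← D.comm₂, hx]⟩
  map_zero' := by
    apply Subtype.ext
    change (D.j₁ 0, D.j₂ 0) = (0, 0)
    rw [map_zero, map_zero]
  map_add' x y := by
    apply Subtype.ext
    change (D.j₁ (x.1.1 + y.1.1), D.j₂ (x.1.2 + y.1.2)) =
      (D.j₁ x.1.1 + D.j₁ y.1.1, D.j₂ x.1.2 + D.j₂ y.1.2)
    rw [map_add, map_add]

@[simp] theorem mapH0_coe (D : BaseChangeData Ψ N N') (x : N.H0) :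
    (mapH0 D x : N'.N₁ × N'.N₂) = (D.j₁ (x : N.N₁ × N.N₂).1, D.j₂ (x : N.N₁ × N.N₂).2) := rfl

/-- `H⁰` commutes with flat base change. -/
theorem isSemiBC_mapH0_of_flat (hΨ : IsPushoutHom Ψ) (D : BaseChangeData Ψ N N')
    (hφ : φ.Flat) : IsSemiBC φ (mapH0 D) :=
  IsSemiBC.ker_of_flat hφ ((isSemiBC_R₁ hΨ D).prodMap (isSemiBC_R₂ hΨ D)) (isSemiBC_R₁₂ hΨ D)
    N.d N'.d (fun m => j₁₂_d D m) (mapH0 D) (fun _ => rfl)

/-- (CB1) `H⁰` commutes with every base change when `H¹(N) = 0` and `N₁₂` is `R`-flat. -/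
theorem isSemiBC_mapH0_of_surjective (hΨ : IsPushoutHom Ψ) (D : BaseChangeData Ψ N N')
    [Module.Flat R N.N₁₂] (hd : Function.Surjective N.d) : IsSemiBC φ (mapH0 D) :=
  IsSemiBC.ker_of_surjective_of_flat ((isSemiBC_R₁ hΨ D).prodMap (isSemiBC_R₂ hΨ D))
    (isSemiBC_R₁₂ hΨ D) N.d hd N'.d (fun m => j₁₂_d D m) (mapH0 D) (fun _ => rfl)

end coh

/-! ### Field extensions -/

section field

variable {k : Type u} [Field k] (𝒞 : CurveData k) {K K' : Type u} [Field K] [Algebra k K]
  [Field K'] [Algebra k K'] (φ : K →ₐ[k] K') {N : GluedModule (𝒞.chart K)}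
  {N' : GluedModule (𝒞.chart K')}

theorem finrank_H1_eq_of_baseChangeData_field (D : BaseChangeData (𝒞.chartHom φ) N N') :
    Module.finrank K' N'.H1 = Module.finrank K N.H1 :=
  (isSemiBC_mapH1 (isPushoutHom_chartHom 𝒞 φ) D).finrank_eq

theorem finrank_H0_eq_of_baseChangeData_field (D : BaseChangeData (𝒞.chartHom φ) N N') :
    Module.finrank K' N'.H0 = Module.finrank K N.H0 := by
  have hφ : (φ : K →+* K').Flat := by
    letI : Algebra K K' := (φ : K →+* K').toAlgebra
    exact (inferInstance : Module.Flat K K')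
  exact (isSemiBC_mapH0_of_flat (isPushoutHom_chartHom 𝒞 φ) D hφ).finrank_eq

/-- The Euler characteristic is invariant under extension of the base field. -/
theorem chi_eq_of_isBC_field (h : IsBC (𝒞.chartHom φ) N N') : chi N' = chi N := by
  obtain ⟨D⟩ := h
  unfold chi
  rw [finrank_H0_eq_of_baseChangeData_field 𝒞 φ D, finrank_H1_eq_of_baseChangeData_field 𝒞 φ D]

end field

end Fermat.Agent.S25.Lib.SemiBC
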